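import Fermat.Agent.DeligneSerre.ModL.Rep
import Fermat.Agent.DeligneSerre.Periods.Congruence

/-!
# Mod `ℓ` representations from congruent forms of weight two
-/

set_option autoImplicit false

noncomputable section

namespace FermatAgent.DeligneSerre.ModL

open _root_.FermatAgent.DeligneSerre.Periods X1

local notation "Qb" => AlgebraicClosure ℚ
local notation "GQ" => AlgebraicClosure ℚ ≃ₐ[ℚ] AlgebraicClosure ℚ

/-- **Mod `ℓ` representations.** A form `g` of weight two on `±Γ₁(M)`, `ℓ ∣ M`, whose diamond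
translates are congruent to an eigen sequence, has an attached representation: trace `a p` and
determinant `p e(p)` at Frobenius for `p ∤ M`. -/
theorem exists_rep_of_congruence {M ℓ : ℕ} [NeZero M] [Fact ℓ.Prime] {k : Type} [Field k]
    [IsAlgClosed k] [CharP k ℓ] (T : TorsionModel M ℓ) (hℓM : ℓ ∣ M)
    {φ : integralClosure ℤ ℂ →+* k} {e : (ZMod M)ˣ →* k} {c a : ℕ → k} (ha : IsEigenSeq e c a)
    (g : S2 M) (hg : HasCong φ e c g 1) (hc : ∃ n, c n ≠ 0) :
    ∃ r : GQ →* GL (Fin 2) k, GaloisFactorsThroughFiniteLevel r ∧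
      ∀ (p : ℕ) (hp : p.Prime) (hpM : ¬ p ∣ M), ∀ A : ValuationSubring Qb, A.LiesOverPrime p →
        (∀ σ ∈ A.inertiaSubgroupIn ℚ, r σ = 1) ∧
        ∀ σ : GQ, A.IsFrobeniusAt σ p →
          Matrix.trace ((r σ : GL (Fin 2) k) : Matrix (Fin 2) (Fin 2) k) = a p ∧
          Matrix.det ((r σ : GL (Fin 2) k) : Matrix (Fin 2) (Fin 2) k) =
            (p : k) * e (primeUnit hp hpM) := by
  have : NeZero ℓ := ⟨(Fact.out : ℓ.Prime).ne_zero⟩
  obtain ⟨χ, hχT, hχD⟩ := exists_character ha g hg hc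
  obtain ⟨φ₀, hne, hK, hT, hD⟩ := exists_eigenHom χ
  obtain ⟨r, hr, h⟩ := exists_rep_of_eigen ℓ T hℓM a e φ₀ hK hne
    (fun p hp hpM γ => by rw [hT p hp hpM γ, hχT p hp hpM])
    (fun d γ => by rw [hD d γ, hχD d])
  exact ⟨r, hr, fun p hp hpM => h p hp fun h' => hpM (((Nat.Prime.dvd_mul hp).mp h').elim id
    fun h'' => h''.trans hℓM)⟩

end FermatAgent.DeligneSerre.ModL
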