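import Fermat.Agent.DeligneSerre.Interface
import Fermat.Agent.DeligneSerre.ModL.Main
import Fermat.Agent.DeligneSerre.WeightOne.WeightTwo

/-!
# Mod `ℓ` representations attached to a weight one eigensystem

An eigensystem carried by a weight one cusp form with algebraic integer coefficients has mod `ℓ`
representations for all large `ℓ`, given the torsion models of `X₁(N ℓ)`.
-/

set_option autoImplicit false

noncomputable section

namespace FermatAgent.DeligneSerre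

open CongruenceSubgroup
open ModularFormClass (qCoeff)

/-- A nonzero algebraic integer is nonzero modulo all large primes. -/
theorem exists_bound_map_ne_zero {x : WeightOne.AlgInt} (hx : x ≠ 0) :
    ∃ B : ℕ, ∀ ℓ : ℕ, B < ℓ → ∀ (k : Type) [Field k] [CharP k ℓ] (φ : WeightOne.AlgInt →+* k),
      φ x ≠ 0 := by
  obtain ⟨r, hr, y, hy⟩ := (Algebra.IsIntegral.isIntegral (R := ℤ) x).isAlgebraic.exists_nonzero_dvd
    (mem_nonZeroDivisors_of_ne_zero hx)
  refine ⟨r.natAbs, fun ℓ hℓ k _ _ φ h0 => hr ?_⟩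
  have hk : (r : k) = 0 := by
    have := congrArg φ hy
    rwa [map_mul, h0, zero_mul, eq_intCast, map_intCast] at this
  exact Int.natAbs_eq_zero.mp (Nat.eq_zero_of_dvd_of_lt
    (Int.natCast_dvd.mp ((CharP.intCast_eq_zero_iff k ℓ r).mp hk)) hℓ)

/-- **Mod `ℓ` representations.** The eigensystem `a`, `ε` carried by a weight one form with
algebraic integer coefficients and `qCoeff f 1 ≠ 0` has mod `ℓ` representations for all large
primes `ℓ`, given torsion models of level `N ℓ`. -/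
theorem hasModLReps_of_torsionModels {N : ℕ} [NeZero N] {ε : DirichletCharacter ℂ N} {a : ℕ → ℂ}
    {f : CuspForm (Gamma1 N) 1} (hint : ∀ n, IsIntegral ℤ (qCoeff f n)) (hf₁ : qCoeff f 1 ≠ 0)
    (haint : ∀ p : ℕ, p.Prime → ¬ p ∣ N → IsIntegral ℤ (a p))
    (hT : ∀ p : ℕ, p.Prime → ¬ p ∣ N → ∀ n : ℕ,
      qCoeff f (p * n) + ε (p : ZMod N) * (if p ∣ n then qCoeff f (n / p) else 0) =
        a p * qCoeff f n)
    (hTM : ∃ B : ℕ, ∀ (ℓ : ℕ) [NeZero ℓ], ℓ.Prime → B ≤ ℓ →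
      Nonempty (ModL.TorsionModel (N * ℓ) ℓ)) :
    HasModLReps a ε := by
  classical
  obtain ⟨B, hB⟩ := hTM
  let c : ℕ → WeightOne.AlgInt := fun n => ⟨qCoeff f n, hint n⟩
  let a' : ℕ → WeightOne.AlgInt := fun p => if h : IsIntegral ℤ (a p) then ⟨a p, h⟩ else 0
  have ha' : ∀ p : ℕ, p.Prime → ¬ p ∣ N → (a' p : ℂ) = a p := fun p hp hpN => by
    simp only [a', dif_pos (haint p hp hpN)]
  have hc1 : c 1 ≠ 0 := fun h => hf₁ (congrArg Subtype.val h)
  obtain ⟨B₁, hB₁⟩ := exists_bound_map_ne_zero hc1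
  have ha : ∀ p : ℕ, p.Prime → ¬ p ∣ N → ∀ n, c (p * n) +
      WeightOne.charInt ε (p : ZMod N) * (if p ∣ n then c (n / p) else 0) = a' p * c n := by
    intro p hp hpN n
    refine Subtype.ext ?_
    split_ifs with h <;>
    · simp only [c, Subalgebra.coe_add, Subalgebra.coe_mul, ha' p hp hpN,
        WeightOne.coe_charInt, Subalgebra.coe_zero]
      simpa [h] using hT p hp hpN n
  refine ⟨max B (max 5 (B₁ + 1)), fun ℓ hℓ hle k _ _ _ φ => ?_⟩
  simp only [max_le_iff] at hle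
  obtain ⟨hleB, h5, hle₁⟩ := hle
  have : NeZero ℓ := ⟨hℓ.ne_zero⟩
  have : Fact ℓ.Prime := ⟨hℓ⟩
  obtain ⟨T⟩ := hB ℓ hℓ hleB
  obtain ⟨g, hg, he⟩ := WeightOne.exists_hasCong (N := N) hℓ h5 φ
    (FermatAgent.ModCurve.Forms.isCF_coe f) (c := c) (a := a')
    (WeightOne.hasCoeff_of_isMF (WeightOne.between_gamma1 N).T_mem
      (FermatAgent.ModCurve.Forms.isCF_coe f).toIsMF) ha
  obtain ⟨ρ, hρ, h⟩ := ModL.exists_rep_of_congruence T (dvd_mul_left ℓ N) he g hg
    ⟨1, hB₁ ℓ hle₁ k φ⟩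
  refine ⟨ρ, hρ, fun p hp hpM A hA => ⟨(h p hp hpM A hA).1, fun σ hσ => ?_⟩⟩
  obtain ⟨htr, hdet⟩ := (h p hp hpM A hA).2 σ hσ
  have hpN : ¬ p ∣ N := fun h' => hpM (h'.mul_right ℓ)
  exact ⟨⟨a' p, ha' p hp hpN, htr⟩, WeightOne.charInt ε (p : ZMod N), rfl,
    hdet.trans (WeightOne.prime_mul_twistChar _ _ hℓ φ ε hp hpM)⟩

end FermatAgent.DeligneSerre
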