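import Fermat.Agent.DeligneSerre.ModL.Inputs
import Fermat.Agent.DeligneSerre.X1.Equivariant.Corr

/-!
# `T_p` and the diamonds on the Kummer group of `X₁(M)` over `ℂ`
-/

set_option autoImplicit false

noncomputable section

open scoped MatrixGroups

namespace FermatAgent.DeligneSerre.ModL

open _root_.FermatAgent.DeligneSerre.Periods X1 Curves
open FermatAgent.Periods (HeckeCorr)

theorem mem_kummerSel_equivOfEq {K A : Type*} [Field K] [Field A] [Algebra K A]
    {E E' : IntermediateField K A} (h : E = E') (n : ℕ) (y : Eˣ) :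
    Units.map (IntermediateField.equivOfEq h).toAlgHom.toRingHom.toMonoidHom y ∈
        kummerSel K E' n ↔ y ∈ kummerSel K E n := by
  subst h
  rw [show Units.map (IntermediateField.equivOfEq (rfl : E = E)).toAlgHom.toRingHom.toMonoidHom y =
    y from Units.ext rfl]

variable {M : ℕ} [NeZero M] [IsCurveGroup (gam M)] {n : ℕ} [NeZero n] (hM : 5 ≤ M)
  {ι : Type} [Fintype ι] (D : HeckeCorr (gam M) ι) (hD : ∀ i, 0 < (D.rep i).det)
  (T : x1FieldC ℂ M →* x1FieldC ℂ M)
  (hT : ∀ a : levelRingOf (gam M), T (toX1 hM a) = toX1 hM ⟨_, corrProd_mem D hD a.2⟩)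

/-- The field of `gam M` seen inside `FieldOf`. -/
def toFieldOf : x1FieldC ℂ M →* FieldOf (gam M) :=
  (IntermediateField.equivOfEq (fieldOf_gam_eq hM).symm).toAlgHom.toRingHom.toMonoidHom

theorem coe_toFieldOf (x : x1FieldC ℂ M) :
    (toFieldOf hM x : LaurentSeries ℂ) = (x : LaurentSeries ℂ) :=
  coe_equivOfEq _ x

/-- The operator on `FieldOf (gam M)`. -/
def transportOp : FieldOf (gam M) →* FieldOf (gam M) :=
  ((toFieldOf hM).comp T).comp (fieldOfGamEquiv hM).toAlgHom.toRingHom.toMonoidHom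

include hT in
theorem transportOp_toField (a : levelRingOf (gam M)) :
    transportOp hM T (toField (gam M) a) = toField (gam M) ⟨_, corrProd_mem D hD a.2⟩ := by
  refine Subtype.ext ?_
  show (toFieldOf hM (T (fieldOfGamEquiv hM (toField (gam M) a))) : LaurentSeries ℂ) = _
  rw [coe_toFieldOf, fieldOfGamEquiv_toField, hT, coe_toX1, coe_toField]

theorem transportOp_toFieldOf (x : x1FieldC ℂ M) :
    transportOp hM T (toFieldOf hM x) = toFieldOf hM (T x) := by
  show toFieldOf hM (T (fieldOfGamEquiv hM (toFieldOf hM x))) = _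
  rw [show fieldOfGamEquiv hM (toFieldOf hM x) = x from
    Subtype.ext ((coe_fieldOfGamEquiv hM _).trans (coe_toFieldOf hM x))]

include hT in
/-- The operator preserves `kummerSel` and becomes the transfer. -/
theorem exists_equivariant :
    ∃ h : ∀ y ∈ kummerSel ℂ (x1FieldC ℂ M) n, Units.map T y ∈ kummerSel ℂ (x1FieldC ℂ M) n,
      ∀ v, (x1KummerHom hM n (kummerMap (Units.map T) h v)).toAdd =
        D.transfer ℤ (x1KummerHom hM n v).toAdd := by
  have key : ∀ y : kummerSel ℂ (x1FieldC ℂ M) n,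
      IsKummerMult n (Units.map (toFieldOf hM) (Units.map T (y : (x1FieldC ℂ M)ˣ)))
        (D.transfer ℤ (x1KummerHom hM n (kummerMk ℂ (x1FieldC ℂ M) n y)).toAdd) := fun y => by
    have e : Units.map (toFieldOf hM) (Units.map T (y : (x1FieldC ℂ M)ˣ)) =
        Units.map (transportOp hM T) (Units.map (toFieldOf hM) (y : (x1FieldC ℂ M)ˣ)) :=
      Units.ext (transportOp_toFieldOf hM T _).symm
    rw [e]
    exact IsKummerMult.corr D hD _ (transportOp_toField hM D hD T hT)
      (isKummerMult_x1KummerHom hM n y)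
  have hsel : ∀ y ∈ kummerSel ℂ (x1FieldC ℂ M) n, Units.map T y ∈ kummerSel ℂ (x1FieldC ℂ M) n :=
    fun y hy => (mem_kummerSel_equivOfEq (fieldOf_gam_eq hM).symm n _).mp (key ⟨y, hy⟩).1
  refine ⟨hsel, fun v => ?_⟩
  obtain ⟨y, rfl⟩ := kummerMk_surjective v
  rw [kummerMap_mk]
  exact (isKummerMult_x1KummerHom hM n ⟨_, hsel y y.2⟩).unique (key y)

variable (M n) in
/-- The operators over `ℂ` are equivariant. -/
theorem equivariantC (hM : 5 ≤ M) : EquivariantC n hM where
  dia d := by
    refine exists_equivariant hM (diaCorr d) (fun _ => det_coe_SL_pos _)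
      (x1Diamond (AlgHom.id ℚ ℂ) d).toRingEquiv.toRingHom.toMonoidHom fun a => ?_
    show x1Diamond (AlgHom.id ℚ ℂ) d (toX1 hM a) = _
    rw [x1Diamond_toX1]
    refine congrArg (toX1 hM) (Subtype.ext (funext fun τ => ?_))
    show (a : UpperHalfPlane → ℂ) (diamondMat d • τ) =
      ∏ i : Unit, (a : UpperHalfPlane → ℂ) (mobPt ((diaCorr d).rep i) (det_coe_SL_pos _) τ)
    rw [Fintype.prod_unique, ← gamma0Lift_smul a.2]
    exact congrArg _ (mobPt_coe_SL (gamma0Lift d) (det_coe_SL_pos _) τ).symm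
  hecke p _ hp hpM :=
    exists_equivariant hM (tCorr1 hp hpM) (tCorr1_det_pos hp hpM) (heckeC hM hp hpM)
      fun a => heckeC_toX1 hM hp hpM a

end FermatAgent.DeligneSerre.ModL
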