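import Fermat.Agent.DeligneSerre.Periods.Corr
import Fermat.Agent.DeligneSerre.Interface

/-!
# The Galois module of `ℓ`-torsion, abstractly

What the mod `ℓ` construction needs of the `ℓ`-torsion of the Jacobian of `X₁(M)`, transported to
the homomorphisms killing elliptic and parabolic elements: a Galois action of finite level
commuting with the Hecke and diamond operators, unramified at `p ∤ M ℓ`, with the
Eichler–Shimura relation at Frobenius elements.
-/

set_option autoImplicit false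

noncomputable section

namespace FermatAgent.DeligneSerre.ModL

open _root_.FermatAgent.DeligneSerre.Periods X1

local notation "Qb" => AlgebraicClosure ℚ
local notation "GQ" => AlgebraicClosure ℚ ≃ₐ[ℚ] AlgebraicClosure ℚ

/-- The torsion of `J₁(M)` with its operators, as `kepHoms (gam M) (ZMod ℓ)`. -/
structure TorsionModel (M ℓ : ℕ) [NeZero M] where
  /-- The Galois action. -/
  gal : GQ →* AddMonoid.End (kepHoms (gam M) (ZMod ℓ))
  finite_level : ∃ L : IntermediateField ℚ Qb, FiniteDimensional ℚ L ∧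
    ∀ σ : GQ, (∀ x ∈ L, σ x = x) → gal σ = 1
  comm_hecke : ∀ (p : ℕ) (hp : p.Prime) (hpM : ¬ p ∣ M) (σ : GQ)
    (x : kepHoms (gam M) (ZMod ℓ)),
    gal σ (heckeKEP hp hpM (ZMod ℓ) x) = heckeKEP hp hpM (ZMod ℓ) (gal σ x)
  comm_dia : ∀ (d : (ZMod M)ˣ) (σ : GQ) (x : kepHoms (gam M) (ZMod ℓ)),
    gal σ (diaKEP (ZMod ℓ) d x) = diaKEP (ZMod ℓ) d (gal σ x)
  unramified : ∀ p : ℕ, p.Prime → ¬ p ∣ M * ℓ → ∀ A : ValuationSubring Qb, A.LiesOverPrime p →
    ∀ σ ∈ A.inertiaSubgroupIn ℚ, gal σ = 1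
  frob_quad : ∀ (p : ℕ) (hp : p.Prime) (hpM : ¬ p ∣ M), p ≠ ℓ →
    ∀ A : ValuationSubring Qb, A.LiesOverPrime p → ∀ σ : GQ, A.IsFrobeniusAt σ p →
      ∀ x : kepHoms (gam M) (ZMod ℓ),
        gal σ (gal σ x) - heckeKEP hp hpM (ZMod ℓ) (gal σ x) +
          p • diaKEP (ZMod ℓ) (primeUnit hp hpM) x = 0

end FermatAgent.DeligneSerre.ModL
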