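import Fermat.Agent.DeligneSerre.ModL.Torsion
import Fermat.Agent.DeligneSerre.Periods.Coords
import Fermat.Agent.DeligneSerre.X1.Kummer.Gam
import Fermat.Agent.DeligneSerre.X1.Descent.Galois

/-!
# The torsion model of `X₁(M)`

The Kummer group over `ℚ̄` is identified with `kepHoms (gam M) (ZMod n)` through `ℂ`, compatibly
with the operators.
-/

set_option autoImplicit false
set_option linter.unusedSectionVars false

noncomputable section

namespace FermatAgent.DeligneSerre.ModL

open _root_.FermatAgent.DeligneSerre.Periods X1 Curves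
open FermatAgent.ModCurveGroup (KillsEP)

local notation "Qb" => AlgebraicClosure ℚ

/-- Only finitely many homomorphisms kill the elliptic and parabolic elements. -/
theorem finite_kepHoms {M : ℕ} [NeZero M] {A : Type} [AddCommGroup A] [Finite A] :
    Finite (kepHoms (gam M) A) := by
  have := finiteIndex_gam (M := M)
  let C := kepCoords (gam M)
  refine Finite.of_injective (fun φ : kepHoms (gam M) A => fun j =>
    (φ : Additive (gam M) →+ A) (Additive.ofMul (C.pt j))) fun φ ψ h => Subtype.ext ?_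
  refine AddMonoidHom.ext fun x => ?_
  rw [C.expand _ φ.2, C.expand _ ψ.2]
  exact Finset.sum_congr rfl fun j _ => congrArg _ (congrFun h j)

variable {M : ℕ} [NeZero M] (n : ℕ) [NeZero n] (hM : 5 ≤ M)

/-- An injective homomorphism with a given range, as an isomorphism. -/
def equivOfRange {V B : Type*} [CommGroup V] [AddCommGroup B] (f : V →* Multiplicative B)
    (S : AddSubgroup B) (hf : Function.Injective f)
    (h : ∀ φ : B, Multiplicative.ofAdd φ ∈ f.range ↔ φ ∈ S) : V ≃* Multiplicative S :=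
  MulEquiv.ofBijective
    (MonoidHom.mk' (fun v => Multiplicative.ofAdd
        (⟨(f v).toAdd, (h _).mp ⟨v, rfl⟩⟩ : S))
      fun v w => congrArg Multiplicative.ofAdd (Subtype.ext
        (show (f (v * w)).toAdd = (f v).toAdd + (f w).toAdd by rw [map_mul, toAdd_mul])))
    ⟨fun _ _ e => hf (Multiplicative.toAdd.injective
        (congrArg Subtype.val (Multiplicative.ofAdd.injective e))),
      fun φ => by
        obtain ⟨v, hv⟩ := (h _).mpr φ.toAdd.2
        exact ⟨v, congrArg Multiplicative.ofAdd (Subtype.ext (congrArg Multiplicative.toAdd hv))⟩⟩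

theorem coe_equivOfRange {V B : Type*} [CommGroup V] [AddCommGroup B] (f : V →* Multiplicative B)
    (S : AddSubgroup B) (hf : Function.Injective f)
    (h : ∀ φ : B, Multiplicative.ofAdd φ ∈ f.range ↔ φ ∈ S) (v : V) :
    (((equivOfRange f S hf h v).toAdd : S) : B) = (f v).toAdd := rfl

theorem ofAdd_mem_range_x1KummerHom [IsCurveGroup (gam M)] (φ : Additive (gam M) →+ ZMod n) :
    Multiplicative.ofAdd φ ∈ (x1KummerHom hM n).range ↔ φ ∈ kepHoms (gam M) (ZMod n) :=
  mem_range_x1KummerHom_iff hM n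

/-- The Kummer group over `ℂ` as homomorphisms killing elliptic and parabolic elements. -/
def equivC [IsCurveGroup (gam M)] :
    KummerV ℂ (x1FieldC ℂ M) n ≃* Multiplicative (kepHoms (gam M) (ZMod n)) :=
  equivOfRange (x1KummerHom hM n) (kepHoms (gam M) (ZMod n)) (x1KummerHom_injective hM n)
    (ofAdd_mem_range_x1KummerHom n hM)

theorem coe_equivC [IsCurveGroup (gam M)] (v : KummerV ℂ (x1FieldC ℂ M) n) :
    (((equivOfRange (x1KummerHom hM n) (kepHoms (gam M) (ZMod n)) (x1KummerHom_injective hM n)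
        (ofAdd_mem_range_x1KummerHom n hM) v).toAdd : kepHoms (gam M) (ZMod n)) :
          Additive (gam M) →+ ZMod n) = (x1KummerHom hM n v).toAdd :=
  coe_equivOfRange (x1KummerHom hM n) _ _ _ v

theorem equivC_eq [IsCurveGroup (gam M)] :
    equivC n hM = equivOfRange (x1KummerHom hM n) (kepHoms (gam M) (ZMod n))
      (x1KummerHom_injective hM n) (ofAdd_mem_range_x1KummerHom n hM) := rfl

include hM in
theorem finite_kummerV_C : Finite (KummerV ℂ (x1FieldC ℂ M) n) := by
  have := isCurveGroup_gam (M := M) hM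
  have : Finite (kepHoms (gam M) (ZMod n)) := finite_kepHoms
  exact Finite.of_equiv _ (equivC n hM).toEquiv.symm

/-- The diamond on units over `ℂ`. -/
abbrev diamondCUnits (d : (ZMod M)ˣ) : (x1FieldC ℂ M)ˣ →* (x1FieldC ℂ M)ˣ :=
  Units.map (x1Diamond (AlgHom.id ℚ ℂ) d).toRingEquiv.toRingHom.toMonoidHom

/-- What is needed over `ℂ`: the operators preserve `kummerSel` and become transfers. -/
structure EquivariantC [IsCurveGroup (gam M)] : Prop where
  dia : ∀ d : (ZMod M)ˣ, ∃ h : ∀ y ∈ kummerSel ℂ (x1FieldC ℂ M) n,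
      diamondCUnits d y ∈ kummerSel ℂ (x1FieldC ℂ M) n,
    ∀ v, (x1KummerHom hM n (kummerMap (diamondCUnits d) h v)).toAdd =
      (diaCorr d).transfer ℤ (x1KummerHom hM n v).toAdd
  hecke : ∀ (p : ℕ) [NeZero p] (hp : p.Prime) (hpM : ¬ p ∣ M),
    ∃ h : ∀ y ∈ kummerSel ℂ (x1FieldC ℂ M) n,
      Units.map (heckeC hM hp hpM) y ∈ kummerSel ℂ (x1FieldC ℂ M) n,
    ∀ v, (x1KummerHom hM n (kummerMap (Units.map (heckeC hM hp hpM)) h v)).toAdd =
      (tCorr1 hp hpM).transfer ℤ (x1KummerHom hM n v).toAdd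

variable {n} (h5 : 5 < M)

theorem x1ToCUnits_diamondUnits (d : (ZMod M)ˣ) (y : (x1Bar M)ˣ) :
    x1ToCUnits M (diamondUnits d y) = diamondCUnits d (x1ToCUnits M y) :=
  Units.ext (barToComplex_diamond d (y : x1Bar M))

theorem x1ToCUnits_heckeUnits {p : ℕ} [NeZero p] (hp : p.Prime) (hpM : ¬ p ∣ M)
    (y : (x1Bar M)ˣ) :
    x1ToCUnits M (heckeUnits hM hp hpM y) = Units.map (heckeC hM hp hpM) (x1ToCUnits M y) :=
  Units.ext (barToComplex_heckeBar hM hp hpM (y : x1Bar M))

include h5 in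
/-- An operator preserving `kummerSel` over `ℂ` preserves it over `ℚ̄`. -/
theorem sel_of_complex {f : (x1Bar M)ˣ →* (x1Bar M)ˣ}
    {g : (x1FieldC ℂ M)ˣ →* (x1FieldC ℂ M)ˣ}
    (hfg : ∀ y, x1ToCUnits M (f y) = g (x1ToCUnits M y))
    (hg : ∀ y ∈ kummerSel ℂ (x1FieldC ℂ M) n, g y ∈ kummerSel ℂ (x1FieldC ℂ M) n) :
    ∀ y ∈ kummerSel Qb (x1Bar M) n, f y ∈ kummerSel Qb (x1Bar M) n := fun y hy => by
  rw [← x1ToCUnits_mem_kummerSel_iff h5, hfg]
  exact hg _ ((x1ToCUnits_mem_kummerSel_iff h5 y).mpr hy)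

theorem descV_kummerMap {f : (x1Bar M)ˣ →* (x1Bar M)ˣ}
    {g : (x1FieldC ℂ M)ˣ →* (x1FieldC ℂ M)ˣ}
    (hfg : ∀ y, x1ToCUnits M (f y) = g (x1ToCUnits M y))
    (hg : ∀ y ∈ kummerSel ℂ (x1FieldC ℂ M) n, g y ∈ kummerSel ℂ (x1FieldC ℂ M) n)
    (x : KummerV Qb (x1Bar M) n) :
    descV M n h5 (kummerMap f (sel_of_complex h5 hfg hg) x) =
      kummerMap g hg (descV M n h5 x) := by
  obtain ⟨y, rfl⟩ := kummerMk_surjective x
  rw [kummerMap_mk, descV_mk, descV_mk, kummerMap_mk]
  exact congrArg _ (Subtype.ext (hfg _))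

variable [IsCurveGroup (gam M)]

/-- The Kummer inputs, given equivariance over `ℂ`. -/
theorem nonempty_kummerInputs_of_equivariantC (hE : EquivariantC n h5.le) :
    Nonempty (KummerInputs M n) := by
  have := finite_kummerV_C n h5.le
  let e : KummerV Qb (x1Bar M) n ≃* Multiplicative (kepHoms (gam M) (ZMod n)) :=
    (MulEquiv.ofBijective (descV M n h5) (descV_bijective h5 (NeZero.ne n))).trans (equivC n h5.le)
  have he : ∀ x, e x = equivC n h5.le (descV M n h5 x) := fun x => rfl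
  choose hd hd' using hE.dia
  have hsd : ∀ d : (ZMod M)ˣ, ∀ y ∈ kummerSel Qb (x1Bar M) n,
      diamondUnits d y ∈ kummerSel Qb (x1Bar M) n := fun d =>
    sel_of_complex h5 (x1ToCUnits_diamondUnits d) (hd d)
  have hsT : ∀ (p : ℕ) [NeZero p] (hM : 5 ≤ M) (hp : p.Prime) (hpM : ¬ p ∣ M),
      ∀ y ∈ kummerSel Qb (x1Bar M) n, heckeUnits hM hp hpM y ∈ kummerSel Qb (x1Bar M) n :=
    fun p _ _ hp hpM => sel_of_complex h5 (x1ToCUnits_heckeUnits _ hp hpM) (hE.hecke p hp hpM).1
  refine ⟨{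
    equiv := e
    dia_sel := hsd
    hecke_sel := hsT
    equiv_dia := fun d x => ?_
    equiv_hecke := fun p _ hM' hp hpM x => ?_
    gal_one := x1GalV_one
    gal_mul := x1GalV_mul
    finite_level := exists_finite_level h5 (NeZero.ne n) }⟩
  · refine Subtype.ext ?_
    rw [he, he]
    show (((equivC n h5.le _).toAdd : kepHoms (gam M) (ZMod n)) : Additive (gam M) →+ ZMod n) =
      (diaCorr d).transfer ℤ _
    rw [equivC_eq, AddSubgroup.coe_subtype, coe_equivC, coe_equivC, descV_kummerMap h5 (x1ToCUnits_diamondUnits d) (hd d), hd']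
  · obtain ⟨hT, hT'⟩ := hE.hecke p hp hpM
    refine Subtype.ext ?_
    rw [he, he]
    show (((equivC n h5.le _).toAdd : kepHoms (gam M) (ZMod n)) : Additive (gam M) →+ ZMod n) =
      (tCorr1 hp hpM).transfer ℤ _
    rw [equivC_eq, AddSubgroup.coe_subtype, coe_equivC, coe_equivC, descV_kummerMap h5 (x1ToCUnits_heckeUnits _ hp hpM) hT, hT']

/-- The torsion model, given equivariance over `ℂ`. -/
theorem nonempty_torsionModel_of_equivariantC [Fact n.Prime] (hE : EquivariantC n h5.le) :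
    Nonempty (TorsionModel M n) :=
  (nonempty_kummerInputs_of_equivariantC h5 hE).map fun I => I.torsionModel h5

end FermatAgent.DeligneSerre.ModL

end
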