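import Fermat.Agent.GalRep.Construct.Cyclotomic
import Fermat.Agent.Local.Place
import Fermat.Prelude.Def_GaloisRep_Residual

/-!
# The cyclotomic character modulo `M`
-/

set_option autoImplicit false

noncomputable section

namespace FermatAgent.DeligneSerre.ModL

local notation "Qb" => AlgebraicClosure ℚ
local notation "GQ" => AlgebraicClosure ℚ ≃ₐ[ℚ] AlgebraicClosure ℚ

variable (M : ℕ) [NeZero M]

theorem natCard_muQb : Nat.card (rootsOfUnity M Qb) = M :=
  haveI : NeZero ((M : ℕ) : Qb) := ⟨Nat.cast_ne_zero.2 (NeZero.ne M)⟩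
  HasEnoughRootsOfUnity.natCard_rootsOfUnity Qb M

/-- The cyclotomic character modulo `M`. -/
def cycMod : GQ →* (ZMod M)ˣ :=
  (modularCyclotomicCharacter Qb (natCard_muQb M)).comp (MulSemiringAction.toRingAut GQ Qb)

theorem cycMod_spec (σ : GQ) {ζ : Qb} (hζ : ζ ^ M = 1) :
    σ ζ = ζ ^ ((cycMod M σ : ZMod M)).val := by
  have hζ0 : ζ ≠ 0 := fun h => by simp [h, zero_pow (NeZero.ne M)] at hζ
  exact modularCyclotomicCharacter.spec Qb (natCard_muQb M) (MulSemiringAction.toRingAut GQ Qb σ)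
    (t := Units.mk0 ζ hζ0) ((mem_rootsOfUnity _ _).2 (Units.ext (by simpa using hζ)))

theorem cycMod_eq {σ : GQ} {a : ℕ} (h : ∀ ζ : Qb, ζ ^ M = 1 → σ ζ = ζ ^ a) :
    (cycMod M σ : ZMod M) = a := by
  have : NeZero ((M : ℕ) : Qb) := ⟨Nat.cast_ne_zero.2 (NeZero.ne M)⟩
  obtain ⟨ζ, hζ⟩ := HasEnoughRootsOfUnity.exists_primitiveRoot Qb M
  have h1 := (cycMod_spec M σ hζ.pow_eq_one).symm.trans (h ζ hζ.pow_eq_one)
  rw [(hζ.isOfFinOrder (NeZero.ne _)).pow_eq_pow_iff_modEq, ← hζ.eq_orderOf] at h1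
  rw [← ZMod.natCast_zmod_val (cycMod M σ : ZMod M), ZMod.natCast_eq_natCast_iff']
  exact h1

variable {M} {p : ℕ} {A : ValuationSubring Qb}

theorem valuation_eq_one_of_root {ζ : Qb} (hζ : ζ ^ M = 1) : A.valuation ζ = 1 := by
  have h1 : A.valuation ζ ^ M = 1 := by rw [← map_pow, hζ, map_one]
  exact (pow_eq_one_iff.1 h1).resolve_right (NeZero.ne M)

theorem root_unique_of_close (hp : p.Coprime M) (hA : A.LiesOverPrime p) {ζ ξ : Qb}
    (hζ : ζ ^ M = 1) (hξ : ξ ^ M = 1) (h : A.valuation (ξ - ζ) < 1) : ξ = ζ := by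
  have hζ0 : ζ ≠ 0 := fun h0 => by simp [h0, zero_pow (NeZero.ne M)] at hζ
  refine (div_eq_one_iff_eq hζ0).1
    (FermatAgent.GalRep.eq_one_of_sub_one_mem_nonunits M hp hA (n := 1) ?_ ?_)
  · rw [pow_one, div_pow, hξ, hζ, div_one]
  · rw [A.mem_nonunits_iff, div_sub_one hζ0, map_div₀, valuation_eq_one_of_root hζ, div_one]
    exact h

theorem cycMod_frobenius (hp : p.Coprime M) (hA : A.LiesOverPrime p) {τ : GQ}
    (hτ : A.IsFrobeniusAt τ p) : (cycMod M τ : ZMod M) = p := by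
  refine cycMod_eq M fun ζ hζ => ?_
  have hmem : ζ ∈ A := (A.valuation_le_one_iff _).1 (valuation_eq_one_of_root hζ).le
  refine root_unique_of_close hp hA (by rw [← pow_mul, mul_comm, pow_mul, hζ, one_pow])
    (by rw [← map_pow, hζ, map_one]) ?_
  have e := hτ.smul_residue_eq (IsLocalRing.residue A ⟨ζ, hmem⟩)
  rw [← IsLocalRing.ResidueField.residue_smul, ← map_pow, ← sub_eq_zero, ← map_sub,
    IsLocalRing.residue_eq_zero_iff] at e
  exact (A.valuation_lt_one_iff _).1 e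

theorem cycMod_inertia (hp : p.Coprime M) (hA : A.LiesOverPrime p) {σ : GQ}
    (hσ : σ ∈ A.inertiaSubgroupIn ℚ) : cycMod M σ = 1 := by
  refine Units.ext ?_
  rw [cycMod_eq M (a := 1) fun ζ hζ => ?_, Nat.cast_one, Units.val_one]
  rw [pow_one]
  exact root_unique_of_close hp hA hζ (by rw [← map_pow, hζ, map_one])
    (Local.inertia_val_sub_lt_one hσ
      ((A.valuation_le_one_iff _).1 (valuation_eq_one_of_root hζ).le))

variable (M) in
theorem exists_level_cycMod : ∃ L : IntermediateField ℚ Qb, FiniteDimensional ℚ L ∧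
    ∀ σ : GQ, (∀ x ∈ L, σ x = x) → cycMod M σ = 1 := by
  have : NeZero ((M : ℕ) : Qb) := ⟨Nat.cast_ne_zero.2 (NeZero.ne M)⟩
  obtain ⟨ζ, hζ⟩ := HasEnoughRootsOfUnity.exists_primitiveRoot Qb M
  refine ⟨IntermediateField.adjoin ℚ {ζ}, IntermediateField.adjoin.finiteDimensional
    ((AlgebraicClosure.isAlgebraic ℚ).isAlgebraic ζ).isIntegral, fun σ hσ => ?_⟩
  refine Units.ext ?_
  rw [cycMod_eq M (a := 1) fun ξ hξ => ?_, Nat.cast_one, Units.val_one]
  obtain ⟨i, -, rfl⟩ := hζ.eq_pow_of_pow_eq_one hξ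
  rw [map_pow, pow_one, hσ ζ (IntermediateField.mem_adjoin_simple_self ℚ ζ)]

end FermatAgent.DeligneSerre.ModL
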