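import Fermat.Agent.GalRep.Construct.Algebra
import Fermat.Agent.GalRep.Construct.Constituent
import Fermat.Agent.GalRep.Density.Frobenius
import Fermat.Prelude.Def_GaloisRep_Residual

/-!
# A two-dimensional representation from a quadratic Eichler–Shimura relation

A finite level representation on a nonzero space over an algebraically closed field, satisfying
`ρ F + ω F • ρ F⁻¹ = a p` at almost all Frobenius elements, gives a two-dimensional representation
with trace `a p` and determinant `ω F` there.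
-/

set_option autoImplicit false

noncomputable section

namespace FermatAgent.DeligneSerre.ModL

open Module FermatAgent.GalRep

variable {k : Type} [Field k] [IsAlgClosed k] {G : Type*} [Group G] {V : Type*} [AddCommGroup V]
  [Module k V] [FiniteDimensional k V] [Nontrivial V]

set_option linter.unnecessarySeqFocus false in
/-- Over an algebraically closed field the quadratic property yields a two-dimensional
representation. -/
theorem exists_two_dim_closed (ρ : G →* Module.End k V) (ω : G →* k) (s : G → k)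
    (h : ∀ g, ρ g + ω g • ρ g⁻¹ = s g • 1) :
    ∃ r : G →* Matrix (Fin 2) (Fin 2) k,
      ∀ g, (r g).trace = s g ∧ (r g).det = ω g ∧ (ρ g = 1 → ω g = 1 → r g = 1) := by
  obtain ⟨W, hW0, hWinv, hWmin⟩ := exists_irreducible_invariant ρ
  have : Nontrivial W := Submodule.nontrivial_iff_ne_bot.mpr hW0
  let r₀ : G →* Module.End k W :=
    { toFun := fun g => (ρ g).restrict (fun x hx => hWinv g x hx)
      map_one' := by ext; simp
      map_mul' := fun g k => by ext; simp }
  have hr₀ : ∀ g, r₀ g + ω g • r₀ g⁻¹ = s g • 1 := fun g => by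
    refine LinearMap.ext fun x => Subtype.ext ?_
    simpa [r₀] using LinearMap.congr_fun (h g) x
  have hone : ∀ g, ρ g = 1 → r₀ g = 1 := fun g hg => by
    refine LinearMap.ext fun x => Subtype.ext ?_
    show ρ g x = x
    rw [hg, Module.End.one_apply]
  have hirr : ∀ U : Submodule k W, (∀ g, ∀ x ∈ U, r₀ g x ∈ U) → U = ⊥ ∨ U = ⊤ := by
    intro U hU
    rcases hWmin (U.map W.subtype) (Submodule.map_subtype_le W U) (fun g x hx => by
      obtain ⟨y, hy, rfl⟩ := hx
      exact ⟨r₀ g y, hU g y hy, rfl⟩) with h1 | h1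
    · exact Or.inl (Submodule.map_injective_of_injective W.injective_subtype (by simpa using h1))
    · exact Or.inr (Submodule.map_injective_of_injective W.injective_subtype (by simpa using h1))
  have hspan := span_range_eq_top_of_irreducible r₀ hirr
  have hdim : finrank k W ≤ 2 := finrank_le_two_of_quadratic r₀ ω s hr₀ hspan
  have hpos : 0 < finrank k W := Module.finrank_pos
  interval_cases hd : finrank k W
  · let b := Module.finBasisOfFinrankEq k W hd
    let l : G →* k :=
      { toFun := fun g => LinearMap.toMatrixAlgEquiv b (r₀ g) 0 0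
        map_one' := by rw [map_one, map_one, Matrix.one_apply_eq]
        map_mul' := fun g k => by
          rw [map_mul, map_mul, Matrix.mul_apply]; simp }
    have hl : ∀ g, l g + ω g * l g⁻¹ = s g := fun g => by
      have h1 := congrArg (fun f => LinearMap.toMatrixAlgEquiv b f 0 0) (hr₀ g)
      simp only [map_add, map_smul, map_one, Matrix.add_apply, Matrix.smul_apply,
        Matrix.one_apply_eq, smul_eq_mul, mul_one] at h1
      exact h1
    have hli : ∀ g, l g * l g⁻¹ = 1 := fun g => by rw [← map_mul, mul_inv_cancel, map_one]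
    let r : G →* Matrix (Fin 2) (Fin 2) k :=
      { toFun := fun g => Matrix.diagonal ![l g, ω g * l g⁻¹]
        map_one' := by
          rw [← Matrix.diagonal_one]
          congr 1
          funext i
          fin_cases i <;> simp
        map_mul' := fun g k => by
          rw [Matrix.diagonal_mul_diagonal]
          congr 1
          funext i
          fin_cases i <;> simp <;> ring }
    refine ⟨r, fun g => ⟨?_, ?_, fun hg hω => ?_⟩⟩
    · simpa [r, Matrix.trace_fin_two] using hl g
    · simp only [r, MonoidHom.coe_mk, OneHom.coe_mk, Matrix.det_diagonal, Fin.prod_univ_two]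
      simp only [Matrix.cons_val_zero, Matrix.cons_val_one]
      linear_combination ω g * hli g
    · have h1 : l g = 1 := by
        show LinearMap.toMatrixAlgEquiv b (r₀ g) 0 0 = 1
        rw [hone g hg, map_one, Matrix.one_apply_eq]
      have h2 : l g⁻¹ = 1 := by rw [← hli g, h1, one_mul]
      show Matrix.diagonal ![l g, ω g * l g⁻¹] = 1
      rw [← Matrix.diagonal_one, h1, h2, hω, mul_one]
      congr 1
      funext i
      fin_cases i <;> simp
  · let b := Module.finBasisOfFinrankEq k W hd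
    let e := LinearMap.toMatrixAlgEquiv b
    let r₁ : G →* Matrix (Fin 2) (Fin 2) k := (e : _ ≃* _).toMonoidHom.comp r₀
    have hspan₁ : Submodule.span k (Set.range r₁) = ⊤ := by
      have hrange : Set.range r₁ = e.toLinearMap '' Set.range r₀ := by
        rw [← Set.range_comp]; rfl
      rw [hrange, Submodule.span_image, hspan, Submodule.map_top, LinearMap.range_eq_top]
      exact e.surjective
    have htd := trace_det_of_quadratic r₁ ω s (fun g => by
      have h1 := congrArg e (hr₀ g)
      simp only [map_add, map_smul, map_one] at h1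
      exact h1) hspan₁
    refine ⟨r₁, fun g => ⟨(htd g).1, (htd g).2, fun hg _ => ?_⟩⟩
    show e (r₀ g) = 1
    rw [hone g hg, map_one]

local notation "Qb" => AlgebraicClosure ℚ
local notation "GQ" => AlgebraicClosure ℚ ≃ₐ[ℚ] AlgebraicClosure ℚ

/-- The representation attached to a finite level module with the Eichler–Shimura relation. -/
theorem exists_rep_of_quadratic (ρ : GQ →* Module.End k V) (ω : GQ →* k) (a : ℕ → k) (B : ℕ)
    [NeZero B]
    (hlevel : ∃ L : IntermediateField ℚ Qb, FiniteDimensional ℚ L ∧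
      ∀ σ : GQ, (∀ x ∈ L, σ x = x) → ρ σ = 1 ∧ ω σ = 1)
    (hunr : ∀ p : ℕ, p.Prime → ¬ p ∣ B → ∀ A : ValuationSubring Qb, A.LiesOverPrime p →
      ∀ σ ∈ A.inertiaSubgroupIn ℚ, ρ σ = 1 ∧ ω σ = 1)
    (hfrob : ∀ p : ℕ, p.Prime → ¬ p ∣ B → ∀ A : ValuationSubring Qb, A.LiesOverPrime p →
      ∀ σ : GQ, A.IsFrobeniusAt σ p → ρ σ + ω σ • ρ σ⁻¹ = a p • 1) :
    ∃ r : GQ →* GL (Fin 2) k, GaloisFactorsThroughFiniteLevel r ∧
      ∀ p : ℕ, p.Prime → ¬ p ∣ B → ∀ A : ValuationSubring Qb, A.LiesOverPrime p →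
        (∀ σ ∈ A.inertiaSubgroupIn ℚ, r σ = 1) ∧
        ∀ σ : GQ, A.IsFrobeniusAt σ p →
          Matrix.trace ((r σ : GL (Fin 2) k) : Matrix (Fin 2) (Fin 2) k) = a p ∧
          Matrix.det ((r σ : GL (Fin 2) k) : Matrix (Fin 2) (Fin 2) k) = ω σ := by
  obtain ⟨L, hL, hL1⟩ := hlevel
  have scalar : ∀ g : GQ, ∃ c : k, ρ g + ω g • ρ g⁻¹ = c • 1 := by
    intro g
    obtain ⟨p, hp, hpS, A, hA, τ, hτ, m, -, hm, -⟩ :=
      exists_isFrobeniusAt_pow_eq L g B.primeFactors.finite_toSet
    have hpB : ¬ p ∣ B := fun h => hpS (Nat.mem_primeFactors.mpr ⟨hp, h, NeZero.ne B⟩)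
    have e : ∀ (η : GQ), (∀ x ∈ L, η x = x) → ρ η = 1 ∧ ω η = 1 := hL1
    have hgτ : ∀ x ∈ L, ((τ ^ m)⁻¹ * g) x = x := fun x hx => by
      rw [AlgEquiv.mul_apply, ← hm x hx, ← AlgEquiv.mul_apply, inv_mul_cancel, AlgEquiv.one_apply]
    have hρ : ρ g = ρ (τ ^ m) := by
      rw [← mul_inv_cancel_left (τ ^ m) g, map_mul, (e _ hgτ).1, mul_one]
    have hω : ω g = ω (τ ^ m) := by
      rw [← mul_inv_cancel_left (τ ^ m) g, map_mul, (e _ hgτ).2, mul_one]
    have hρi : ρ g⁻¹ = ρ (τ ^ m)⁻¹ := by
      have h1 : ∀ η : GQ, ρ η⁻¹ * ρ η = 1 := fun η => by rw [← map_mul, inv_mul_cancel, map_one]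
      have h2 : ρ g * ρ (τ ^ m)⁻¹ = 1 := by
        rw [hρ, ← map_mul, mul_inv_cancel, map_one]
      calc ρ g⁻¹ = ρ g⁻¹ * (ρ g * ρ (τ ^ m)⁻¹) := by rw [h2, mul_one]
        _ = ρ (τ ^ m)⁻¹ := by rw [← mul_assoc, h1, one_mul]
    refine ⟨powTrace (a p) (ω τ) m, ?_⟩
    have hxy : ρ τ * (ω τ • ρ τ⁻¹) = algebraMap k (Module.End k V) (ω τ) := by
      rw [mul_smul_comm, ← map_mul, mul_inv_cancel, map_one, Algebra.algebraMap_eq_smul_one]
    have hyx : (ω τ • ρ τ⁻¹) * ρ τ = algebraMap k (Module.End k V) (ω τ) := by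
      rw [smul_mul_assoc, ← map_mul, inv_mul_cancel, map_one, Algebra.algebraMap_eq_smul_one]
    have h := pow_add_pow_eq_powTrace (algebraMap k (Module.End k V)) (a p) (ω τ)
      (by rw [hfrob p hp hpB A hA τ hτ, Algebra.algebraMap_eq_smul_one]) hxy hyx m
    rw [smul_pow, ← map_pow ρ, ← map_pow ρ, ← map_pow ω, inv_pow] at h
    rw [hρ, hω, hρi, h, Algebra.algebraMap_eq_smul_one]
  choose s hs using scalar
  obtain ⟨r, hr⟩ := exists_two_dim_closed ρ ω s hs
  refine ⟨r.toHomUnits, ⟨L, hL, fun σ hσ => Units.ext ((hr σ).2.2 (hL1 σ hσ).1 (hL1 σ hσ).2)⟩,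
    fun p hp hpB A hA => ⟨fun σ hσ => ?_, fun σ hσ => ?_⟩⟩
  · exact Units.ext ((hr σ).2.2 (hunr p hp hpB A hA σ hσ).1 (hunr p hp hpB A hA σ hσ).2)
  · have h1 : s σ • (1 : Module.End k V) = a p • 1 := (hs σ).symm.trans (hfrob p hp hpB A hA σ hσ)
    have h2 : s σ = a p := smul_left_injective k (one_ne_zero) h1
    exact ⟨(hr σ).1.trans h2, (hr σ).2.1⟩

end FermatAgent.DeligneSerre.ModL
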