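import Fermat.Agent.DeligneSerre.ModL.Datum
import Fermat.Agent.DeligneSerre.ModL.Omega
import Fermat.Agent.DeligneSerre.ModL.TwoDim
import Fermat.Agent.DeligneSerre.Periods.Coords

/-!
# Mod `ℓ` representations from the torsion of `J₁(M)`

An eigen homomorphism for the operators `T_p` and `⟨d⟩` with values in an algebraically closed
field of characteristic `ℓ` cuts out a two-dimensional Galois representation.
-/

set_option autoImplicit false

noncomputable section

open scoped MatrixGroups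
open Matrix

namespace FermatAgent.DeligneSerre.ModL

open _root_.FermatAgent.DeligneSerre.Periods X1 ModCurveGroup
open FermatAgent.Periods (HeckeCorr)

local notation "Qb" => AlgebraicClosure ℚ
local notation "GQ" => AlgebraicClosure ℚ ≃ₐ[ℚ] AlgebraicClosure ℚ

variable {Γ : Subgroup SL(2, ℤ)} [ContainsNegOne Γ] [Γ.FiniteIndex] (C : KepCoords Γ)
  (ℓ : ℕ)

/-- The coordinate homomorphisms modulo `ℓ`. -/
def coordMod (j : Fin C.r) : kepHoms Γ (ZMod ℓ) :=
  ⟨(Int.castAddHom (ZMod ℓ)).comp (C.coord j : Additive Γ →+ ℤ), fun γ hγ => by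
    simp [(C.coord j).2 γ hγ]⟩

/-- The matrix of an operator modulo `ℓ`. -/
def opMat (E : AddMonoid.End (kepHoms Γ (ZMod ℓ))) : Matrix (Fin C.r) (Fin C.r) (ZMod ℓ) :=
  Matrix.of fun i j => (E (coordMod C ℓ j) : Additive Γ →+ ZMod ℓ) (Additive.ofMul (C.pt i))

variable [NeZero ℓ]

omit [ContainsNegOne Γ] [Γ.FiniteIndex] in
theorem coord_expand (x : kepHoms Γ (ZMod ℓ)) :
    x = ∑ j, ((x : Additive Γ →+ ZMod ℓ) (Additive.ofMul (C.pt j))).val • coordMod C ℓ j := by
  refine Subtype.ext (AddMonoidHom.ext fun z => ?_)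
  rw [C.expand (x : Additive Γ →+ ZMod ℓ) x.2 z, AddSubgroup.val_finsetSum,
    AddMonoidHom.finsetSum_apply]
  refine Finset.sum_congr rfl fun j _ => ?_
  simp [coordMod, mul_comm]

omit [ContainsNegOne Γ] [Γ.FiniteIndex] in
theorem op_apply_pt (E : AddMonoid.End (kepHoms Γ (ZMod ℓ))) (x : kepHoms Γ (ZMod ℓ))
    (i : Fin C.r) :
    (E x : Additive Γ →+ ZMod ℓ) (Additive.ofMul (C.pt i)) =
      ∑ j, opMat C ℓ E i j * (x : Additive Γ →+ ZMod ℓ) (Additive.ofMul (C.pt j)) := by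
  conv_lhs => rw [coord_expand C ℓ x, map_sum]
  rw [AddSubgroup.val_finsetSum, AddMonoidHom.finsetSum_apply]
  refine Finset.sum_congr rfl fun j _ => ?_
  rw [map_nsmul]
  simp [opMat, mul_comm]

/-- `opMat` as a ring homomorphism. -/
def opMatHom : AddMonoid.End (kepHoms Γ (ZMod ℓ)) →+* Matrix (Fin C.r) (Fin C.r) (ZMod ℓ) where
  toFun := opMat C ℓ
  map_one' := by
    ext i j
    simp only [opMat, Matrix.of_apply, Matrix.one_apply, AddMonoid.End.coe_one, id_eq, coordMod,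
      AddMonoidHom.coe_comp, Function.comp_apply, C.coord_pt i j]
    split <;> simp
  map_mul' E F := by
    ext i j
    rw [Matrix.mul_apply]
    exact op_apply_pt C ℓ E (F (coordMod C ℓ j)) i
  map_zero' := by ext i j; simp [opMat]
  map_add' E F := by
    ext i j
    rw [Matrix.add_apply]
    rfl

variable {k : Type} [Field k] [Fact ℓ.Prime] [CharP k ℓ]

/-- `opMat` with coefficients in `k`. -/
def opMatK : AddMonoid.End (kepHoms Γ (ZMod ℓ)) →+* Matrix (Fin C.r) (Fin C.r) k :=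
  (ZMod.castHom dvd_rfl k).mapMatrix.comp (opMatHom C ℓ)

omit [ContainsNegOne Γ] [Γ.FiniteIndex] in
/-- A transfer acts on the coordinates of a `k`-valued homomorphism through its matrix. -/
theorem transfer_coords {ι : Type} [Fintype ι] (D : HeckeCorr Γ ι) (φ : Additive Γ →+ k)
    (hφ : KillsEP Γ φ) (i : Fin C.r) :
    D.transfer ℤ φ (Additive.ofMul (C.pt i)) =
      (opMatK C ℓ (kepTransfer D) *ᵥ fun j => φ (Additive.ofMul (C.pt j))) i := by
  let u : Fin C.r → (ZMod ℓ →+ k) := fun j =>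
    (AddMonoidHom.mulRight (φ (Additive.ofMul (C.pt j)))).comp
      (ZMod.castHom dvd_rfl k).toAddMonoidHom
  have hsum : φ = ∑ j, (u j).comp (coordMod C ℓ j : Additive Γ →+ ZMod ℓ) := by
    refine AddMonoidHom.ext fun z => ?_
    rw [C.expand φ hφ z, AddMonoidHom.finsetSum_apply]
    refine Finset.sum_congr rfl fun j _ => ?_
    simp [u, coordMod, zsmul_eq_mul]
  conv_lhs => rw [hsum, map_sum, AddMonoidHom.finsetSum_apply]
  refine Finset.sum_congr rfl fun j _ => ?_
  rw [D.transfer_map ℤ (u j)]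
  rfl

theorem add_smul_eq_of_quadratic {R : Type*} [Ring R] [Algebra k R] {x y : R} {a w : k}
    (hxy : x * y = 1) (h : x * x - a • x + w • (1 : R) = 0) : x + w • y = a • (1 : R) := by
  have h1 : (x * x - a • x + w • (1 : R)) * y = 0 := by rw [h, zero_mul]
  rw [add_mul, sub_mul, smul_mul_assoc, smul_mul_assoc, one_mul, mul_assoc, hxy, mul_one] at h1
  linear_combination (norm := module) h1

variable {M : ℕ} [NeZero M]

attribute [local instance] finiteIndex_gam

set_option maxHeartbeats 1000000 in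
-- a long proof over nested subtypes
/-- **The mod `ℓ` representation** attached to an eigen homomorphism. -/
theorem exists_rep_of_eigen [IsAlgClosed k] (T : TorsionModel M ℓ) (hℓM : ℓ ∣ M) (a : ℕ → k)
    (e : (ZMod M)ˣ →* k) (φ : Additive (gam M) →+ k) (hφ : KillsEP (gam M) φ) (hne : φ ≠ 0)
    (hT : ∀ (p : ℕ) (hp : p.Prime) (hpM : ¬ p ∣ M) (γ : gam M),
      haveI : NeZero p := ⟨hp.ne_zero⟩
      (tCorr1 hp hpM).transfer ℤ φ (Additive.ofMul γ) = a p * φ (Additive.ofMul γ))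
    (hD : ∀ (d : (ZMod M)ˣ) (γ : gam M),
      (diaCorr d).transfer ℤ φ (Additive.ofMul γ) = e d * φ (Additive.ofMul γ)) :
    ∃ r : GQ →* GL (Fin 2) k, GaloisFactorsThroughFiniteLevel r ∧
      ∀ (p : ℕ) (hp : p.Prime) (hpMℓ : ¬ p ∣ M * ℓ), ∀ A : ValuationSubring Qb,
        A.LiesOverPrime p →
        (∀ σ ∈ A.inertiaSubgroupIn ℚ, r σ = 1) ∧
        ∀ σ : GQ, A.IsFrobeniusAt σ p →
          Matrix.trace ((r σ : GL (Fin 2) k) : Matrix (Fin 2) (Fin 2) k) = a p ∧
          Matrix.det ((r σ : GL (Fin 2) k) : Matrix (Fin 2) (Fin 2) k) =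
            (p : k) * e (primeUnit hp fun h => hpMℓ (h.mul_right ℓ)) := by
  let C := kepCoords (gam M)
  let F : GQ → Matrix (Fin C.r) (Fin C.r) k := fun σ => opMatK C ℓ (T.gal σ)
  let Tk : (p : ℕ) → p.Prime → ¬ p ∣ M → Matrix (Fin C.r) (Fin C.r) k := fun p hp hpM =>
    opMatK C ℓ (heckeKEP hp hpM (ZMod ℓ))
  let Dk : (ZMod M)ˣ → Matrix (Fin C.r) (Fin C.r) k := fun d => opMatK C ℓ (diaKEP (ZMod ℓ) d)
  let v : Fin C.r → k := fun j => φ (Additive.ofMul (C.pt j))
  let W : Submodule k (Fin C.r → k) :=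
    { carrier := {w | (∀ p hp hpM, Tk p hp hpM *ᵥ w = a p • w) ∧ ∀ d, Dk d *ᵥ w = e d • w}
      zero_mem' := ⟨fun p hp hpM => by simp, fun d => by simp⟩
      add_mem' := fun {x y} hx hy => ⟨fun p hp hpM => by
          rw [Matrix.mulVec_add, hx.1 p hp hpM, hy.1 p hp hpM, smul_add], fun d => by
          rw [Matrix.mulVec_add, hx.2 d, hy.2 d, smul_add]⟩
      smul_mem' := fun c x hx => ⟨fun p hp hpM => by
          rw [Matrix.mulVec_smul, hx.1 p hp hpM, smul_comm], fun d => by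
          rw [Matrix.mulVec_smul, hx.2 d, smul_comm]⟩ }
  have hvW : v ∈ W := by
    refine ⟨fun p hp hpM => funext fun i => ?_, fun d => funext fun i => ?_⟩
    · have : NeZero p := ⟨hp.ne_zero⟩
      exact (transfer_coords C ℓ (tCorr1 hp hpM) φ hφ i).symm.trans (hT p hp hpM (C.pt i))
    · exact (transfer_coords C ℓ (diaCorr d) φ hφ i).symm.trans (hD d (C.pt i))
  have : Nontrivial W := by
    refine Submodule.nontrivial_iff_ne_bot.mpr fun h => hne ?_
    have hv0 : v = 0 := (Submodule.eq_bot_iff W).mp h v hvW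
    refine AddMonoidHom.ext fun z => ?_
    rw [C.expand φ hφ z]
    simp [show ∀ j, φ (Additive.ofMul (C.pt j)) = 0 from congrFun hv0]
  have hFT : ∀ σ p hp hpM, F σ * Tk p hp hpM = Tk p hp hpM * F σ := fun σ p hp hpM => by
    simp only [F, Tk, ← map_mul]
    exact congrArg _ (AddMonoidHom.ext fun x => T.comm_hecke p hp hpM σ x)
  have hFD : ∀ σ d, F σ * Dk d = Dk d * F σ := fun σ d => by
    simp only [F, Dk, ← map_mul]
    exact congrArg _ (AddMonoidHom.ext fun x => T.comm_dia d σ x)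
  have hinv : ∀ σ, ∀ w ∈ W, F σ *ᵥ w ∈ W := fun σ w hw => ⟨fun p hp hpM => by
      rw [Matrix.mulVec_mulVec, ← hFT, ← Matrix.mulVec_mulVec, hw.1, Matrix.mulVec_smul],
    fun d => by
      rw [Matrix.mulVec_mulVec, ← hFD, ← Matrix.mulVec_mulVec, hw.2, Matrix.mulVec_smul]⟩
  let ρ : GQ →* Module.End k W :=
    { toFun := fun σ => (F σ).mulVecLin.restrict (fun w hw => hinv σ w hw)
      map_one' := by
        refine LinearMap.ext fun w => Subtype.ext ?_
        show F 1 *ᵥ (w : Fin C.r → k) = w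
        simp [F]
      map_mul' := fun σ τ => by
        refine LinearMap.ext fun w => Subtype.ext ?_
        show F (σ * τ) *ᵥ (w : Fin C.r → k) = F σ *ᵥ (F τ *ᵥ (w : Fin C.r → k))
        simp [F, Matrix.mulVec_mulVec] }
  have hρone : ∀ σ, T.gal σ = 1 → ρ σ = 1 := fun σ h => by
    refine LinearMap.ext fun w => Subtype.ext ?_
    show F σ *ᵥ (w : Fin C.r → k) = w
    simp [F, h]
  let ω : GQ →* k :=
    ((ZMod.castHom hℓM k).toMonoidHom.comp (Units.coeHom (ZMod M)) * e).comp (cycMod M)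
  have hωone : ∀ σ, cycMod M σ = 1 → ω σ = 1 := fun σ h => by
    show ZMod.castHom hℓM k ((cycMod M σ : (ZMod M)ˣ) : ZMod M) * e (cycMod M σ) = 1
    rw [h, Units.val_one, map_one, map_one, mul_one]
  have : NeZero (M * ℓ) := ⟨mul_ne_zero (NeZero.ne M) (NeZero.ne ℓ)⟩
  have hω : ∀ p (hp : p.Prime) (hpM : ¬ p ∣ M), ∀ A : ValuationSubring Qb, A.LiesOverPrime p →
      ∀ σ : GQ, A.IsFrobeniusAt σ p → ω σ = (p : k) * e (primeUnit hp hpM) := by
    intro p hp hpM A hA σ hσ
    have h := cycMod_frobenius (M := M) (hp.coprime_iff_not_dvd.mpr hpM) hA hσ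
    have hu : cycMod M σ = primeUnit hp hpM := Units.ext (by rw [h, coe_primeUnit])
    show ZMod.castHom hℓM k ((cycMod M σ : (ZMod M)ˣ) : ZMod M) * e (cycMod M σ) = _
    rw [hu, coe_primeUnit, map_natCast]
  refine (exists_rep_of_quadratic ρ ω a (M * ℓ) ?_ ?_ ?_).imp fun r ⟨hr, hr'⟩ =>
    ⟨hr, fun p hp hpMℓ A hA => ⟨(hr' p hp hpMℓ A hA).1, fun σ hσ =>
      ⟨((hr' p hp hpMℓ A hA).2 σ hσ).1,
        ((hr' p hp hpMℓ A hA).2 σ hσ).2.trans (hω p hp _ A hA σ hσ)⟩⟩⟩
  · obtain ⟨L, hL, hL1⟩ := T.finite_level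
    obtain ⟨L', hL', hL'1⟩ := exists_level_cycMod M
    exact ⟨L ⊔ L', IntermediateField.finiteDimensional_sup L L', fun σ hσ =>
      ⟨hρone σ (hL1 σ fun x hx => hσ x (le_sup_left (b := L') hx)),
        hωone σ (hL'1 σ fun x hx => hσ x (le_sup_right (a := L) hx))⟩⟩
  · intro p hp hpMℓ A hA σ hσ
    exact ⟨hρone σ (T.unramified p hp hpMℓ A hA σ hσ),
      hωone σ (cycMod_inertia (hp.coprime_iff_not_dvd.mpr fun h => hpMℓ (h.mul_right ℓ)) hA hσ)⟩
  · intro p hp hpMℓ A hA σ hσ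
    have hpM : ¬ p ∣ M := fun h => hpMℓ (h.mul_right ℓ)
    have hpℓ : p ≠ ℓ := fun h => hpMℓ (h ▸ dvd_mul_left ℓ M)
    have hquad : F σ * F σ - Tk p hp hpM * F σ + p • Dk (primeUnit hp hpM) = 0 := by
      have hE : T.gal σ * T.gal σ - heckeKEP hp hpM (ZMod ℓ) * T.gal σ +
          p • diaKEP (ZMod ℓ) (primeUnit hp hpM) = 0 :=
        AddMonoidHom.ext fun x => T.frob_quad p hp hpM hpℓ A hA σ hσ x
      have h := congrArg (opMatK (k := k) C ℓ) hE
      rw [map_add, map_sub, map_mul, map_mul, map_nsmul, map_zero] at h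
      exact h
    have hρq : ρ σ * ρ σ - a p • ρ σ + ω σ • (1 : Module.End k W) = 0 := by
      refine LinearMap.ext fun w => Subtype.ext ?_
      show F σ *ᵥ (F σ *ᵥ (w : Fin C.r → k)) - a p • (F σ *ᵥ (w : Fin C.r → k)) +
        ω σ • (w : Fin C.r → k) = 0
      have h := congrArg (fun X : Matrix (Fin C.r) (Fin C.r) k => X *ᵥ (w : Fin C.r → k)) hquad
      simp only [Matrix.add_mulVec, Matrix.sub_mulVec, ← Matrix.mulVec_mulVec, Matrix.smul_mulVec,
        Matrix.zero_mulVec, w.2.2, (hinv σ w w.2).1] at h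
      rw [hω p hp hpM A hA σ hσ, mul_smul, Nat.cast_smul_eq_nsmul k]
      exact h
    have hxy : ρ σ * ρ σ⁻¹ = 1 := by rw [← map_mul, mul_inv_cancel, map_one]
    exact add_smul_eq_of_quadratic (R := Module.End k W) (x := ρ σ) (y := ρ σ⁻¹) hxy hρq

end FermatAgent.DeligneSerre.ModL
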