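import Fermat.Agent.DeligneSerre.ModL.Datum
import Fermat.Agent.DeligneSerre.X1.Operators

/-!
# The Galois module of `ℓ`-torsion from the Kummer group
-/

set_option autoImplicit false

noncomputable section

namespace FermatAgent.DeligneSerre.ModL

open _root_.FermatAgent.DeligneSerre.Periods X1

local notation "Qb" => AlgebraicClosure ℚ
local notation "GQ" => AlgebraicClosure ℚ ≃ₐ[ℚ] AlgebraicClosure ℚ

variable {M ℓ : ℕ} [NeZero M]

/-- What is needed to transport the Galois action to `kepHoms (gam M) (ZMod ℓ)`: an equivariant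
identification of the Kummer group, and the group law and finite level of the Galois action. -/
structure KummerInputs (M ℓ : ℕ) [NeZero M] where
  equiv : KummerV Qb (x1Bar M) ℓ ≃* Multiplicative (kepHoms (gam M) (ZMod ℓ))
  dia_sel : ∀ (d : (ZMod M)ˣ), ∀ y ∈ kummerSel Qb (x1Bar M) ℓ,
    diamondUnits d y ∈ kummerSel Qb (x1Bar M) ℓ
  hecke_sel : ∀ (p : ℕ) [NeZero p] (hM : 5 ≤ M) (hp : p.Prime) (hpM : ¬ p ∣ M),
    ∀ y ∈ kummerSel Qb (x1Bar M) ℓ, heckeUnits hM hp hpM y ∈ kummerSel Qb (x1Bar M) ℓ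
  equiv_dia : ∀ (d : (ZMod M)ˣ) (x : KummerV Qb (x1Bar M) ℓ),
    (equiv (kummerMap (diamondUnits d) (dia_sel d) x)).toAdd =
      diaKEP (ZMod ℓ) d (equiv x).toAdd
  equiv_hecke : ∀ (p : ℕ) [NeZero p] (hM : 5 ≤ M) (hp : p.Prime) (hpM : ¬ p ∣ M)
      (x : KummerV Qb (x1Bar M) ℓ),
    (equiv (kummerMap (heckeUnits hM hp hpM) (hecke_sel p hM hp hpM) x)).toAdd =
      heckeKEP hp hpM (ZMod ℓ) (equiv x).toAdd
  gal_one : ∀ x : KummerV Qb (x1Bar M) ℓ, x1GalV M ℓ 1 x = x
  gal_mul : ∀ (σ τ : GQ) (x : KummerV Qb (x1Bar M) ℓ),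
    x1GalV M ℓ (σ * τ) x = x1GalV M ℓ σ (x1GalV M ℓ τ x)
  finite_level : ∃ L : IntermediateField ℚ Qb, FiniteDimensional ℚ L ∧
    ∀ σ : GQ, (∀ x ∈ L, σ x = x) → ∀ x : KummerV Qb (x1Bar M) ℓ, x1GalV M ℓ σ x = x

namespace KummerInputs

variable (I : KummerInputs M ℓ)

/-- The transported action of one element. -/
def galEnd (σ : GQ) : AddMonoid.End (kepHoms (gam M) (ZMod ℓ)) :=
  AddMonoidHom.mk' (fun x => (I.equiv (x1GalV M ℓ σ (I.equiv.symm (Multiplicative.ofAdd x)))).toAdd)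
    fun x y => by simp [ofAdd_add]

theorem galEnd_apply (σ : GQ) (x : KummerV Qb (x1Bar M) ℓ) :
    I.galEnd σ (I.equiv x).toAdd = (I.equiv (x1GalV M ℓ σ x)).toAdd := by
  show (I.equiv (x1GalV M ℓ σ (I.equiv.symm (Multiplicative.ofAdd (I.equiv x).toAdd)))).toAdd = _
  rw [ofAdd_toAdd, MulEquiv.symm_apply_apply]

theorem exists_eq (x : kepHoms (gam M) (ZMod ℓ)) :
    ∃ v : KummerV Qb (x1Bar M) ℓ, (I.equiv v).toAdd = x :=
  ⟨I.equiv.symm (Multiplicative.ofAdd x), by simp⟩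

/-- The Galois action. -/
def galHom : GQ →* AddMonoid.End (kepHoms (gam M) (ZMod ℓ)) where
  toFun := I.galEnd
  map_one' := by
    refine AddMonoidHom.ext fun x => ?_
    obtain ⟨v, rfl⟩ := I.exists_eq x
    exact (I.galEnd_apply 1 v).trans (congrArg (fun z => (I.equiv z).toAdd) (I.gal_one v))
  map_mul' σ τ := by
    refine AddMonoidHom.ext fun x => ?_
    obtain ⟨v, rfl⟩ := I.exists_eq x
    exact (I.galEnd_apply (σ * τ) v).trans
      ((congrArg (fun z => (I.equiv z).toAdd) (I.gal_mul σ τ v)).trans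
        ((I.galEnd_apply σ _).symm.trans (congrArg _ (I.galEnd_apply τ v).symm)))

theorem galHom_apply (σ : GQ) (x : KummerV Qb (x1Bar M) ℓ) :
    I.galHom σ (I.equiv x).toAdd = (I.equiv (x1GalV M ℓ σ x)).toAdd :=
  I.galEnd_apply σ x

set_option maxHeartbeats 1000000 in
/-- The torsion model. -/
def torsionModel [Fact ℓ.Prime] (h5 : 5 < M) : TorsionModel M ℓ where
  gal := I.galHom
  finite_level := by
    obtain ⟨L, hL, h⟩ := I.finite_level
    refine ⟨L, hL, fun σ hσ => AddMonoidHom.ext fun x => ?_⟩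
    obtain ⟨v, rfl⟩ := I.exists_eq x
    exact (I.galHom_apply σ v).trans (congrArg (fun z => (I.equiv z).toAdd) (h σ hσ v))
  comm_hecke p hp hpM σ x := by
    have : NeZero p := ⟨hp.ne_zero⟩
    obtain ⟨v, rfl⟩ := I.exists_eq x
    rw [← I.equiv_hecke p h5.le hp hpM v, galHom_apply, galHom_apply,
      x1GalV_kummerMap σ _ (heckeUnits_x1GalUnits h5.le hp hpM σ), I.equiv_hecke p h5.le hp hpM]
  comm_dia d σ x := by
    obtain ⟨v, rfl⟩ := I.exists_eq x
    rw [← I.equiv_dia d v, galHom_apply, galHom_apply,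
      x1GalV_kummerMap σ _ (diamondUnits_x1GalUnits d σ), I.equiv_dia d]
  unramified p hp hpMl A hA σ hσ := by
    refine AddMonoidHom.ext fun x => ?_
    obtain ⟨v, rfl⟩ := I.exists_eq x
    exact (I.galHom_apply σ v).trans (congrArg (fun z => (I.equiv z).toAdd)
      (x1GalV_eq_of_inertia A hp hA h5 (fun h => hpMl (h.mul_right ℓ)) hσ
        (fun h => hpMl (h.mul_left M)) v))
  frob_quad p hp hpM hpl A hA σ hσ x := by
    have : NeZero p := ⟨hp.ne_zero⟩
    obtain ⟨v, rfl⟩ := I.exists_eq x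
    have hpd : ¬ p ∣ ℓ := fun h => hpl ((Nat.prime_dvd_prime_iff_eq hp Fact.out).mp h)
    have h := x1GalV_frobenius A hp hA h5 hpM hσ (isDiamond_x1BarDiamond (primeUnit hp hpM))
      (isHeckeOp_heckeUnits h5.le hp hpM) hpd (I.dia_sel (primeUnit hp hpM)) (I.hecke_sel p h5.le hp hpM) v
    have h' := congrArg (fun z => (I.equiv z).toAdd) h
    simp only [map_mul, map_pow, toAdd_mul, toAdd_pow] at h'
    rw [galHom_apply, galHom_apply, ← I.equiv_hecke p h5.le hp hpM]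
    rw [show diaKEP (ZMod ℓ) (primeUnit hp hpM) (I.equiv v).toAdd =
      (I.equiv (kummerMap (diamondUnits (primeUnit hp hpM)) (I.dia_sel _) v)).toAdd from
        (I.equiv_dia _ v).symm]
    rw [sub_add_eq_add_sub, sub_eq_zero]
    exact h'

end KummerInputs

end FermatAgent.DeligneSerre.ModL
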